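import Fermat.Agent.S37x.Level.H4_PushPull
import Fermat.Agent.S37x.FFL.H9_Top

/-!
# S37 [LEVEL] (helper4): the kernel of `ι^* : Pic⁰ F_N → Pic⁰ F_M` is killed by `[F_M : F_N]`

Hypothesis-free instance of `H4_PushPull` for the inclusion `incL N M h : F_N → F_M` over `ℚ̄`
(`N ∣ M`), from helper9's `h9_stFFL`.
-/

set_option autoImplicit false

noncomputable section

namespace Fermat.Agent.S37x.Level.H4

open AlgebraicCurve ModularCurve

local notation "Qbar" => AlgebraicClosure ℚ

variable (N M : ℕ) [NeZero N] [NeZero M] (h : N ∣ M)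

/-- `ι_* ι^* D = [F_M : F_N] • D` for the inclusion `F_N ⊆ F_M`. -/
theorem h4_pushforward_pullback_incL (hint : (Asm.incL N M h).toRingHom.IsIntegral)
    [HasPrincipalDivisors Qbar (modularFunctionFieldBar M)]
    (D : Divisor Qbar (modularFunctionFieldBar N)) :
    Divisor.pushforwardAlong (Asm.incL N M h) hint
        (Divisor.pullbackAlong (Asm.incL N M h) hint D)
      = (finrankAlong Qbar (Asm.incL N M h)) • D := by
  obtain ⟨_, _, _, hFI, _, _, hdegN⟩ := FFL.H9.h9_stFFL N M h
  exact h4_pushforwardAlong_pullbackAlong _ hint hFI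
    (fun v => by rw [hdegN v]; exact one_ne_zero) D

/-- **If `ι^* D` is principal on `F_M`, then `[F_M : F_N] • D` is principal on `F_N`.** -/
theorem h4_smul_isPrincipal_incL (hint : (Asm.incL N M h).toRingHom.IsIntegral)
    [HasPrincipalDivisors Qbar (modularFunctionFieldBar M)]
    {D : Divisor Qbar (modularFunctionFieldBar N)}
    (hD : (Divisor.pullbackAlong (Asm.incL N M h) hint D).IsPrincipal) :
    ((finrankAlong Qbar (Asm.incL N M h)) • D).IsPrincipal := by
  obtain ⟨_, _, hfin, hFI, hN, _, hdegN⟩ := FFL.H9.h9_stFFL N M h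
  exact h4_smul_isPrincipal_of_pullbackAlong _ hint hFI hfin hN
    (fun v => by rw [hdegN v]; exact one_ne_zero) hD

end Fermat.Agent.S37x.Level.H4
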