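import Mathlib
import Fermat.Prelude.Def_AlgebraicCurve_Correspondence

/-!
# S37 [LEVEL] (helper4): push-forward after pull-back is multiplication by the degree

For a finite extension `F' / F` of function fields over `K` with the fundamental identity
`∑ e(w|v) deg w = [F' : F] deg v` (and `deg v ≠ 0`):

* `h4_sum_ram_mul_inertia` : `∑_{w | v} e(w|v) f(w|v) = [F' : F]`;
* `h4_pushforward_pullback` : `π_* π^* D = [F' : F] • D` on divisors;
* `h4_smul_isPrincipal_of_pullback` : if `π^* D` is principal then `[F' : F] • D` is principal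
  (norm formula), i.e. the kernel of `π^* : Pic⁰ F → Pic⁰ F'` is killed by the degree;
* `h4_pushforwardHom_pullbackHom`, `h4_smul_eq_zero_of_pullbackHom_eq_zero` : the same on `Pic⁰`;
* the `…Along` forms for an algebra homomorphism `φ : F →ₐ[K] F'`
  (`h4_correspondence_self` : the correspondence `φ_* φ^*` is `finrankAlong K φ`).

Mathlib + prelude only.
-/

set_option autoImplicit false

noncomputable section

namespace Fermat.Agent.S37x.Level.H4

open AlgebraicCurve

section Tower

variable {K F F' : Type*} [Field K] [Field F] [Field F']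
  [Algebra K F] [Algebra K F'] [Algebra F F'] [IsScalarTower K F F']
  [Algebra.IsIntegral F F'] [HasPrincipalDivisors K F']

/-- `∑_{w | v} e(w|v) f(w|v) = [F' : F]`, from the fundamental identity. -/
theorem h4_sum_ram_mul_inertia [FundamentalIdentity K F F'] (v : Place K F) (hv : v.deg ≠ 0) :
    ∑ w ∈ v.fiber F', (w.ramificationIndex F : ℤ) * (w.inertiaDeg F : ℤ)
      = (Module.finrank F F' : ℤ) := by
  have key := FundamentalIdentity.sum_ramificationIndex_mul_deg (K := K) (F := F) (F' := F') v
  have h1 : ∑ w ∈ v.fiber F', (w.ramificationIndex F : ℤ) * (w.deg : ℤ)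
      = (∑ w ∈ v.fiber F', (w.ramificationIndex F : ℤ) * (w.inertiaDeg F : ℤ)) * (v.deg : ℤ) := by
    rw [Finset.sum_mul]
    refine Finset.sum_congr rfl fun w hw => ?_
    have htower : ((w.restrict F).deg : ℤ) * (w.inertiaDeg F : ℤ) = (w.deg : ℤ) := by
      exact_mod_cast congrArg (Nat.cast (R := ℤ)) (w.deg_restrict_mul_inertiaDeg (F := F))
    rw [Place.mem_fiber.mp hw] at htower
    rw [← htower]; ring
  rw [h1] at key
  have hv' : (v.deg : ℤ) ≠ 0 := by exact_mod_cast hv
  exact mul_right_cancel₀ hv' key

/-- `π_* π^* (n • v) = ([F' : F] * n) • v`. -/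
theorem h4_pushforward_pullback_single [FundamentalIdentity K F F'] (v : Place K F)
    (hv : v.deg ≠ 0) (n : ℤ) :
    Divisor.pushforward F (Divisor.pullback F' (Finsupp.single v n))
      = Finsupp.single v ((Module.finrank F F' : ℤ) * n) := by
  rw [Divisor.pullback_single, map_sum]
  have h1 : ∀ w ∈ v.fiber F',
      Divisor.pushforward F (Finsupp.single w (n * (w.ramificationIndex F : ℤ)))
        = Finsupp.single v (n * ((w.ramificationIndex F : ℤ) * (w.inertiaDeg F : ℤ))) := by
    intro w hw
    rw [Divisor.pushforward_single, Place.mem_fiber.mp hw, mul_assoc]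
  rw [Finset.sum_congr rfl h1]
  have h2 : ∑ w ∈ v.fiber F',
      (Finsupp.single v (n * ((w.ramificationIndex F : ℤ) * (w.inertiaDeg F : ℤ)))
        : Divisor K F)
      = Finsupp.single v (∑ w ∈ v.fiber F',
          n * ((w.ramificationIndex F : ℤ) * (w.inertiaDeg F : ℤ))) := by
    exact (map_sum (Finsupp.singleAddHom v) _ _).symm
  rw [h2, ← Finset.mul_sum, h4_sum_ram_mul_inertia v hv, mul_comm]

/-- **`π_* π^* = [F' : F]` on divisors.** -/
theorem h4_pushforward_pullback [FundamentalIdentity K F F']
    (hdeg : ∀ v : Place K F, v.deg ≠ 0) (D : Divisor K F) :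
    Divisor.pushforward F (Divisor.pullback F' D) = (Module.finrank F F') • D := by
  induction D using Finsupp.induction with
  | zero => simp
  | single_add v n D _ _ ih =>
    rw [map_add, map_add, ih, h4_pushforward_pullback_single v (hdeg v), smul_add]
    congr 1
    rw [← Finsupp.smul_single_one v, ← Finsupp.smul_single_one v n, ← natCast_zsmul,
      smul_smul]

/-- If `π^* D` is principal then `[F' : F] • D` is principal. -/
theorem h4_smul_isPrincipal_of_pullback [FundamentalIdentity K F F'] [Module.Finite F F']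
    (H : Divisor.PushforwardNormFormula K F F')
    (hdeg : ∀ v : Place K F, v.deg ≠ 0) {D : Divisor K F}
    (hD : (Divisor.pullback F' D).IsPrincipal) :
    ((Module.finrank F F') • D).IsPrincipal := by
  rw [← h4_pushforward_pullback hdeg D]
  exact Divisor.isPrincipal_pushforward_of_normFormula H hD

/-- **`π_* π^* = [F' : F]` on `Pic⁰`.** -/
theorem h4_pushforwardHom_pullbackHom [FundamentalIdentity K F F'] [Module.Finite F F']
    (H : Divisor.PushforwardNormFormula K F F')
    (hdeg : ∀ v : Place K F, v.deg ≠ 0) (x : Pic0 K F) :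
    Pic0.pushforwardHom K F F' H (Pic0.pullbackHom F' x) = (Module.finrank F F') • x := by
  obtain ⟨D, rfl⟩ := QuotientAddGroup.mk_surjective x
  change Pic0.pushforwardHom K F F' H (Pic0.pullbackHom F' (Pic0.mk D)) = _
  rw [Pic0.pullbackHom_mk, Pic0.pushforwardHom_mk]
  have h : Pic0.pushforwardDegZeroHom F (Pic0.pullbackDegZeroHom F' D)
      = (Module.finrank F F') • D := by
    apply Subtype.ext
    rw [Pic0.coe_pushforwardDegZeroHom, Pic0.coe_pullbackDegZeroHom,
      h4_pushforward_pullback hdeg]
    rfl
  rw [h]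
  rfl

/-- **The kernel of `π^* : Pic⁰ F → Pic⁰ F'` is killed by `[F' : F]`.** -/
theorem h4_smul_eq_zero_of_pullbackHom_eq_zero [FundamentalIdentity K F F']
    [Module.Finite F F'] (H : Divisor.PushforwardNormFormula K F F')
    (hdeg : ∀ v : Place K F, v.deg ≠ 0) (x : Pic0 K F)
    (hx : Pic0.pullbackHom F' x = 0) : (Module.finrank F F') • x = 0 := by
  rw [← h4_pushforwardHom_pullbackHom H hdeg x, hx, map_zero]

end Tower

section Along

variable {K F F' : Type*} [Field K] [Field F] [Field F'] [Algebra K F] [Algebra K F']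
  [HasPrincipalDivisors K F']
variable (φ : F →ₐ[K] F') (hφ : φ.toRingHom.IsIntegral)

/-- **`φ_* φ^* = deg φ` on divisors.** -/
theorem h4_pushforwardAlong_pullbackAlong (hFI : FundamentalIdentityAlong K φ hφ)
    (hdeg : ∀ v : Place K F, v.deg ≠ 0) (D : Divisor K F) :
    Divisor.pushforwardAlong φ hφ (Divisor.pullbackAlong φ hφ D) = (finrankAlong K φ) • D := by
  letI := algebraAlong φ
  haveI := isScalarTower_along φ
  haveI := isIntegral_along φ hφ
  haveI : FundamentalIdentity K F F' := hFI
  exact h4_pushforward_pullback (F' := F') hdeg D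

/-- The correspondence `φ_* φ^*` is multiplication by `deg φ`. -/
theorem h4_correspondence_self (hFI : FundamentalIdentityAlong K φ hφ)
    (hdeg : ∀ v : Place K F, v.deg ≠ 0) (D : Divisor K F) :
    Divisor.correspondence φ φ hφ hφ D = (finrankAlong K φ) • D := by
  rw [Divisor.correspondence_apply, h4_pushforwardAlong_pullbackAlong φ hφ hFI hdeg]

/-- If `φ^* D` is principal then `deg φ • D` is principal. -/
theorem h4_smul_isPrincipal_of_pullbackAlong (hFI : FundamentalIdentityAlong K φ hφ)
    (hfin : FiniteAlong K φ) (hN : NormFormulaAlong K φ hfin)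
    (hdeg : ∀ v : Place K F, v.deg ≠ 0) {D : Divisor K F}
    (hD : (Divisor.pullbackAlong φ hφ D).IsPrincipal) :
    ((finrankAlong K φ) • D).IsPrincipal := by
  rw [← h4_pushforwardAlong_pullbackAlong φ hφ hFI hdeg D]
  exact Divisor.isPrincipal_pushforwardAlong φ hφ hfin hN hD

/-- The correspondence `φ_* φ^*` on `Pic⁰` is multiplication by `deg φ`. -/
theorem h4_pic0_correspondence_self (hFI : FundamentalIdentityAlong K φ hφ)
    (hfin : FiniteAlong K φ) (hN : NormFormulaAlong K φ hfin)
    (hdeg : ∀ v : Place K F, v.deg ≠ 0) (x : Pic0 K F) :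
    Pic0.correspondence φ φ hφ hφ hFI hfin hN x = (finrankAlong K φ) • x := by
  obtain ⟨D, rfl⟩ := QuotientAddGroup.mk_surjective x
  change Pic0.correspondence φ φ hφ hφ hFI hfin hN (Pic0.mk D) = _
  rw [Pic0.correspondence_mk]
  have h : Pic0.degZeroCorrespondence φ φ hφ hφ hFI D = (finrankAlong K φ) • D := by
    apply Subtype.ext
    rw [Pic0.coe_degZeroCorrespondence, h4_correspondence_self φ hφ hFI hdeg]
    rfl
  rw [h]
  rfl

end Along

end Fermat.Agent.S37x.Level.H4
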